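import Fermat.Agent.EllipseArc.Main
import Fermat.Agent.Hypergeometric.Period
import Mathlib.RingTheory.AlgebraicIndependent.AlgebraicClosure

/-!
# Chudnovsky's theorem for complete elliptic integrals

Every non-zero period is a multiple of a period in a basis, so Chudnovsky's theorem applies to
`η / T` and `π / T`.
-/

set_option autoImplicit false

noncomputable section

open scoped Real IntermediateField

namespace FA.EllipseArc

open FA.Chudnovsky (Frame alpha exists_frame not_isIntegral_four isIntegral_natCast_adjoin)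
open FA.EllipticSecondKind (eta eta_eq_of_primitive)
open FA.BrownawellWaldschmidt (algebraicIndependent_pair isIntegral_self)

variable {L : PeriodPair}

theorem exists_frame_of_mem {T : ℂ} (hT : T ∈ L.lattice) (hT0 : T ≠ 0) :
    ∃ (Φ : Frame L) (k : ℤ), k ≠ 0 ∧ T = k * Φ.ω := by
  obtain ⟨Ψ, -⟩ := exists_frame L
  obtain ⟨m, n, rfl⟩ := (Ψ.mem T).1 hT
  have hmn : m ≠ 0 ∨ n ≠ 0 := by
    by_contra h
    simp only [not_or, not_not] at h
    simp [h.1, h.2] at hT0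
  obtain ⟨g, hg, m', n', hco, rfl, rfl⟩ : ∃ g : ℕ, 0 < g ∧ ∃ m' n' : ℤ,
      Int.gcd m' n' = 1 ∧ m = m' * g ∧ n = n' * g :=
    ⟨_, Int.gcd_pos_iff.2 hmn, Int.exists_gcd_one (Int.gcd_pos_iff.2 hmn)⟩
  obtain ⟨u, v, huv⟩ := Int.isCoprime_iff_gcd_eq_one.2 hco
  set d : ℂ := (m' : ℂ) + n' * Ψ.τ with hd
  have hd0 : d ≠ 0 := fun h => hT0 (by
    rw [show ((m' * (g : ℤ) : ℤ) : ℂ) + ((n' * (g : ℤ) : ℤ) : ℂ) * Ψ.τ = (g : ℤ) * d by
        rw [hd]; push_cast; ring, h, mul_zero, zero_mul])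
  have hu : (u : ℂ) * m' + v * n' = 1 := by exact_mod_cast huv
  refine ⟨⟨d * Ψ.ω, (-(v : ℂ) + u * Ψ.τ) / d, mul_ne_zero hd0 Ψ.hω, ?_, fun x => ?_⟩,
    g, by exact_mod_cast hg.ne', ?_⟩
  · rw [Complex.div_im, ← sub_div]
    refine div_pos ?_ (Complex.normSq_pos.2 hd0)
    have hur : (u : ℝ) * m' + v * n' = 1 := by exact_mod_cast huv
    simp only [hd, Complex.add_im, Complex.add_re, Complex.mul_im, Complex.mul_re,
      Complex.intCast_im, Complex.intCast_re, Complex.neg_im, Complex.neg_re, zero_mul,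
      sub_zero, add_zero, zero_add, neg_zero]
    linear_combination (norm := (ring_nf; nlinarith [Ψ.hτ])) Ψ.τ.im * hur
  · refine (Ψ.mem x).trans ⟨?_, ?_⟩
    · rintro ⟨p, q, rfl⟩
      refine ⟨p * u + q * v, q * m' - p * n', ?_⟩
      field_simp
      rw [hd]
      push_cast
      linear_combination ((p : ℂ) + q * Ψ.τ) * Ψ.ω * hu
    · rintro ⟨p, q, rfl⟩
      refine ⟨p * m' - q * v, p * n' + q * u, ?_⟩
      field_simp
      rw [hd]
      push_cast
      ring
  · show _ = ((g : ℤ) : ℂ) * (d * Ψ.ω)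
    rw [hd]
    push_cast
    ring

theorem eta_frame_multiple (Φ : Frame L) (k : ℤ) : eta Φ (k * Φ.ω) = alpha Φ * (k * Φ.ω) := by
  rw [eta, mul_div_cancel_right₀ _ Φ.hω]
  simp

/-- No field of transcendence degree one holds `g₂, g₃, η / T, π / T`. -/
theorem not_isIntegral_period {θ : ℂ} (hθ : Transcendental ℚ θ) {ζ : ℂ → ℂ}
    (hζ : ∀ z ∉ L.lattice, HasDerivAt ζ (-(L.weierstrassP z)) z) {T η : ℂ} (hT : T ∈ L.lattice)
    (hT0 : T ≠ 0) (hη : ∀ z ∉ L.lattice, ζ (z + T) = ζ z + η) (h₂ : IsIntegral ℚ⟮θ⟯ L.g₂)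
    (h₃ : IsIntegral ℚ⟮θ⟯ L.g₃) (hα : IsIntegral ℚ⟮θ⟯ (η / T))
    (hπ : IsIntegral ℚ⟮θ⟯ ((π : ℂ) / T)) : False := by
  obtain ⟨Φ, k, hk, rfl⟩ := exists_frame_of_mem hT hT0
  rw [eta_eq_of_primitive Φ hζ hT hη, eta_frame_multiple, mul_div_cancel_right₀ _ hT0] at hα
  refine not_isIntegral_four Φ hθ h₂ h₃ hα ?_
  have hk0 : (k : ℂ) ≠ 0 := Int.cast_ne_zero.2 hk
  have hki : IsIntegral ℚ⟮θ⟯ (k : ℂ) :=
    map_intCast (algebraMap ℚ⟮θ⟯ ℂ) k ▸ isIntegral_algebraMap
  rw [show (π : ℂ) / Φ.ω = k * ((π : ℂ) / (k * Φ.ω)) by field_simp]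
  exact hki.mul hπ

/-- `η / π` is transcendental. -/
theorem transcendental_quasiPeriod_div_pi (h₂ : IsAlgebraic ℚ L.g₂) (h₃ : IsAlgebraic ℚ L.g₃)
    {ζ : ℂ → ℂ} (hζ : ∀ z ∉ L.lattice, HasDerivAt ζ (-(L.weierstrassP z)) z) {T η : ℂ}
    (hT : T ∈ L.lattice) (hT0 : T ≠ 0) (hη : ∀ z ∉ L.lattice, ζ (z + T) = ζ z + η) :
    Transcendental ℚ (η / (π : ℂ)) := fun h => by
  have hθ := FA.SchneiderLang.transcendental_pi_div_period h₂ h₃ hT hT0
  refine not_isIntegral_period hθ hζ hT hT0 hη h₂.isIntegral.tower_top h₃.isIntegral.tower_top ?_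
    (isIntegral_self _)
  have hπ : (π : ℂ) ≠ 0 := Complex.ofReal_ne_zero.2 Real.pi_ne_zero
  rw [show η / T = η / (π : ℂ) * ((π : ℂ) / T) by field_simp]
  exact h.isIntegral.tower_top.mul (isIntegral_self _)

variable {m : ℝ}

theorem completeK_pos (hm : m < 1) : 0 < completeK m :=
  intervalIntegral.intervalIntegral_pos_of_pos
    ((continuous_inv_radical hm).intervalIntegrable _ _)
    (fun t => inv_pos.2 (radical_pos hm t)) Real.pi_div_two_pos

theorem transcendental_completeK_div_pi (hm : m < 1) (hm0 : m ≠ 0) (hma : IsAlgebraic ℚ m) :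
    Transcendental ℚ (completeK m / π) := fun h => by
  obtain ⟨L, ζ, h₂, h₃, -, hT, -⟩ := exists_period_quasiPeriod hm hm0
  obtain ⟨-, hg2, hg3⟩ := isAlgebraic_roots hma
  have hK := (completeK_pos hm).ne'
  refine FA.SchneiderLang.transcendental_pi_div_period (h₂ ▸ hg2.algebraMap (A := ℂ))
    (h₃ ▸ hg3.algebraMap (A := ℂ)) hT
    (Complex.ofReal_ne_zero.2 (mul_ne_zero two_ne_zero hK)) ?_
  convert ((isAlgebraic_natCast (R := ℚ) (A := ℝ) 2).mul h).inv.algebraMap (A := ℂ) using 1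
  simp
  field_simp

/-- **Chudnovsky**: `K / π` and `E / π` are algebraically independent. -/
theorem algebraicIndependent_div_pi (hm : m < 1) (hm0 : m ≠ 0) (hma : IsAlgebraic ℚ m) :
    AlgebraicIndependent ℚ ![completeK m / π, completeE m / π] := by
  refine AlgebraicIndependent.of_comp (Complex.ofRealAm.restrictScalars ℚ) ?_
  have hx : Transcendental ℚ ((completeK m / π : ℝ) : ℂ) :=
    (transcendental_algebraMap_iff (A := ℂ) (algebraMap ℝ ℂ).injective).2
      (transcendental_completeK_div_pi hm hm0 hma)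
  suffices h : AlgebraicIndependent ℚ
      ![((completeK m / π : ℝ) : ℂ), ((completeE m / π : ℝ) : ℂ)] by
    convert h using 1
    ext i
    fin_cases i <;> rfl
  refine algebraicIndependent_pair hx ?_
  intro hy
  set θ : ℂ := ((completeK m / π : ℝ) : ℂ) with hθ
  obtain ⟨L, ζ, h₂, h₃, hζ, hT, hη⟩ := exists_period_quasiPeriod hm hm0
  obtain ⟨h1, hg2, hg3⟩ := isAlgebraic_roots hma
  have hK := (completeK_pos hm).ne'
  have hK' : (completeK m : ℂ) ≠ 0 := Complex.ofReal_ne_zero.2 hK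
  have hπ : (π : ℂ) ≠ 0 := Complex.ofReal_ne_zero.2 Real.pi_ne_zero
  have h2 : IsIntegral ℚ⟮θ⟯ (2 : ℂ) := by simpa using isIntegral_natCast_adjoin θ 2
  have hr : IsIntegral ℚ⟮θ⟯ ((rootOne m + 1 : ℝ) : ℂ) :=
    ((h1.add isAlgebraic_one).algebraMap (A := ℂ)).isIntegral.tower_top
  refine not_isIntegral_period hx hζ hT
    (Complex.ofReal_ne_zero.2 (mul_ne_zero two_ne_zero hK)) hη
    (h₂ ▸ (hg2.algebraMap (A := ℂ)).isIntegral.tower_top)
    (h₃ ▸ (hg3.algebraMap (A := ℂ)).isIntegral.tower_top) ?_ ?_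
  · rw [show ((2 * completeE m - (rootOne m + 1) * (2 * completeK m) : ℝ) : ℂ) /
      ((2 * completeK m : ℝ) : ℂ) =
        ((completeE m / π : ℝ) : ℂ) * θ⁻¹ - ((rootOne m + 1 : ℝ) : ℂ) by
      rw [hθ]; push_cast; field_simp]
    exact (hy.isIntegral.mul (isIntegral_self θ).inv).sub hr
  · rw [show (π : ℂ) / ((2 * completeK m : ℝ) : ℂ) = (2 * θ)⁻¹ by
      rw [hθ]; push_cast; field_simp]
    exact (h2.mul (isIntegral_self θ)).inv

theorem transcendental_completeE_div_pi (hm : m < 1) (hm0 : m ≠ 0) (hma : IsAlgebraic ℚ m) :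
    Transcendental ℚ (completeE m / π) := by
  simpa using (algebraicIndependent_div_pi hm hm0 hma).transcendental 1

theorem transcendental_perimeter_div_pi {a b : ℝ} (ha : 0 < a) (hb : 0 < b) (hab : a ≠ b)
    (ha' : IsAlgebraic ℚ a) (hb' : IsAlgebraic ℚ b) :
    Transcendental ℚ
      ((∫ t in (0 : ℝ)..2 * π, √((a * Real.sin t) ^ 2 + (b * Real.cos t) ^ 2)) / π) := by
  rw [integral_ellipse hb]
  intro h
  have hq : 0 < a ^ 2 / b ^ 2 := by positivity
  have hm0 : (1 : ℝ) - a ^ 2 / b ^ 2 ≠ 0 := fun e => hab (by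
    have e1 : a ^ 2 = b ^ 2 := by field_simp at e; linarith
    exact (pow_left_inj₀ ha.le hb.le two_ne_zero).1 e1)
  have hm' : IsAlgebraic ℚ (1 - a ^ 2 / b ^ 2) := by
    rw [div_eq_mul_inv]
    exact isAlgebraic_one.sub ((ha'.pow 2).mul (hb'.pow 2).inv)
  refine transcendental_completeE_div_pi (by linarith) hm0 hm' ?_
  have hc : IsAlgebraic ℚ ((4 * b)⁻¹) := by
    simpa using ((isAlgebraic_natCast (R := ℚ) (A := ℝ) 4).mul hb').inv
  have := hc.mul h
  rwa [mul_div_assoc, inv_mul_cancel_left₀ (by positivity)] at this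

/-- `agm (1, √(1 - m))` and `E / π` are algebraically independent. -/
theorem algebraicIndependent_agm (hm : m < 1) (hm0 : m ≠ 0) (hma : IsAlgebraic ℚ m) :
    AlgebraicIndependent ℚ
      ![(NNReal.agm 1 (√(1 - m)).toNNReal : ℝ), completeE m / π] := by
  have h := algebraicIndependent_div_pi hm hm0 hma
  set M : ℝ := (NNReal.agm 1 (√(1 - m)).toNNReal : ℝ) with hM
  have hKM : completeK m = π / (2 * M) := FA.Hypergeometric.integral_quarter_eq_agm hm
  have hM' : Transcendental ℚ ((M : ℝ) : ℂ) := by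
    refine (transcendental_algebraMap_iff (A := ℂ) (algebraMap ℝ ℂ).injective).2 fun hMa => ?_
    refine transcendental_completeK_div_pi hm hm0 hma ?_
    rw [hKM, show π / (2 * M) / π = (2 * M)⁻¹ by field_simp]
    exact ((isAlgebraic_natCast (R := ℚ) (A := ℝ) 2).mul hMa).inv
  refine AlgebraicIndependent.of_comp (Complex.ofRealAm.restrictScalars ℚ) ?_
  suffices h' : AlgebraicIndependent ℚ ![(M : ℂ), ((completeE m / π : ℝ) : ℂ)] by
    convert h' using 1
    ext i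
    fin_cases i <;> rfl
  refine algebraicIndependent_pair hM' ?_
  intro hy
  obtain ⟨L, ζ, h₂, h₃, hζ, hT, hη⟩ := exists_period_quasiPeriod hm hm0
  obtain ⟨h1, hg2, hg3⟩ := isAlgebraic_roots hma
  have hK := (completeK_pos hm).ne'
  have hπ : (π : ℂ) ≠ 0 := Complex.ofReal_ne_zero.2 Real.pi_ne_zero
  have hM0 : M ≠ 0 := fun e => hK (by rw [hKM, e]; simp)
  have hM0' : (M : ℂ) ≠ 0 := Complex.ofReal_ne_zero.2 hM0
  have h2 : IsIntegral ℚ⟮(M : ℂ)⟯ (2 : ℂ) := by simpa using isIntegral_natCast_adjoin (M : ℂ) 2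
  have hr : IsIntegral ℚ⟮(M : ℂ)⟯ ((rootOne m + 1 : ℝ) : ℂ) :=
    ((h1.add isAlgebraic_one).algebraMap (A := ℂ)).isIntegral.tower_top
  refine not_isIntegral_period hM' hζ hT
    (Complex.ofReal_ne_zero.2 (mul_ne_zero two_ne_zero hK)) hη
    (h₂ ▸ (hg2.algebraMap (A := ℂ)).isIntegral.tower_top)
    (h₃ ▸ (hg3.algebraMap (A := ℂ)).isIntegral.tower_top) ?_ ?_
  · rw [show ((2 * completeE m - (rootOne m + 1) * (2 * completeK m) : ℝ) : ℂ) /
      ((2 * completeK m : ℝ) : ℂ) =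
        2 * ((completeE m / π : ℝ) : ℂ) * M - ((rootOne m + 1 : ℝ) : ℂ) by
      rw [hKM]; push_cast; field_simp]
    exact ((h2.mul hy.isIntegral).mul (isIntegral_self _)).sub hr
  · rw [show (π : ℂ) / ((2 * completeK m : ℝ) : ℂ) = M by rw [hKM]; push_cast; field_simp]
    exact isIntegral_self _

end FA.EllipseArc

end
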