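import Mathlib.Analysis.SpecialFunctions.Integrals.Basic
import Mathlib.Analysis.SpecialFunctions.Trigonometric.Deriv
import Mathlib.Analysis.Calculus.Deriv.Inverse
import Mathlib.MeasureTheory.Integral.IntervalIntegral.IntegrationByParts
import Mathlib.MeasureTheory.Integral.IntervalIntegral.Periodic

/-!
# The amplitude

`am` inverts the incomplete elliptic integral of the first kind; `y = e₁ + m sin² (am)` satisfies
the differential equation of `℘` with roots `e₁, e₁ + m, e₁ + 1`.
-/

set_option autoImplicit false

noncomputable section

open Real MeasureTheory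
open scoped Real

namespace FA.EllipseArc

variable (m : ℝ)

/-- `√(1 - m sin² t)`. -/
def radical (t : ℝ) : ℝ := √(1 - m * Real.sin t ^ 2)

/-- The incomplete integral of the first kind. -/
def incomplete (t : ℝ) : ℝ := ∫ s in (0 : ℝ)..t, (radical m s)⁻¹

/-- The complete integral of the first kind. -/
def completeK : ℝ := ∫ t in (0 : ℝ)..π / 2, (radical m t)⁻¹

/-- The complete integral of the second kind. -/
def completeE : ℝ := ∫ t in (0 : ℝ)..π / 2, radical m t

/-- The amplitude. -/
def am : ℝ → ℝ := Function.invFun (incomplete m)

/-- The smallest root. -/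
def rootOne : ℝ := -(1 + m) / 3

/-- The function on the segment. -/
def segFun (x : ℝ) : ℝ := rootOne m + m * Real.sin (am m x) ^ 2

/-- Its derivative. -/
def segDer (x : ℝ) : ℝ :=
  2 * m * Real.sin (am m x) * Real.cos (am m x) * radical m (am m x)

/-- The invariant `g₂`. -/
def invTwo : ℝ := -4 * (rootOne m * (rootOne m + m) + rootOne m * (rootOne m + 1) +
  (rootOne m + m) * (rootOne m + 1))

/-- The invariant `g₃`. -/
def invThree : ℝ := 4 * (rootOne m * (rootOne m + m) * (rootOne m + 1))

variable {m} (hm : m < 1)

include hm

theorem radicand_pos (t : ℝ) : 0 < 1 - m * Real.sin t ^ 2 := by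
  rcases le_or_gt m 0 with h | h
  · linarith [mul_nonpos_of_nonpos_of_nonneg h (sq_nonneg (Real.sin t))]
  · nlinarith [Real.sin_sq_le_one t]

theorem radical_pos (t : ℝ) : 0 < radical m t := Real.sqrt_pos.2 (radicand_pos hm t)

theorem radical_sq (t : ℝ) : radical m t ^ 2 = 1 - m * Real.sin t ^ 2 :=
  Real.sq_sqrt (radicand_pos hm t).le

theorem continuous_inv_radical : Continuous fun t => (radical m t)⁻¹ :=
  Continuous.inv₀ (by unfold radical; fun_prop) fun t => (radical_pos hm t).ne'

theorem hasDerivAt_incomplete (t : ℝ) : HasDerivAt (incomplete m) (radical m t)⁻¹ t :=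
  intervalIntegral.integral_hasDerivAt_right ((continuous_inv_radical hm).intervalIntegrable _ _)
    ((continuous_inv_radical hm).stronglyMeasurableAtFilter _ _)
    (continuous_inv_radical hm).continuousAt

theorem strictMono_incomplete : StrictMono (incomplete m) :=
  strictMono_of_deriv_pos fun t => by
    rw [(hasDerivAt_incomplete hm t).deriv]
    exact inv_pos.2 (radical_pos hm t)

omit hm in
theorem integral_zero_pi {f : ℝ → ℝ} (hf : Continuous f) (hsym : ∀ t, f (π - t) = f t) :
    ∫ t in (0 : ℝ)..π, f t = 2 * ∫ t in (0 : ℝ)..π / 2, f t := by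
  rw [← intervalIntegral.integral_add_adjacent_intervals (b := π / 2)
    (hf.intervalIntegrable _ _) (hf.intervalIntegrable _ _)]
  have h : ∫ t in (0 : ℝ)..π / 2, f (π - t) = ∫ t in π / 2..π, f t := by
    rw [intervalIntegral.integral_comp_sub_left]
    congr 1 <;> ring
  simp only [hsym] at h
  rw [← h]
  ring

theorem incomplete_pi : incomplete m π = 2 * completeK m :=
  integral_zero_pi (continuous_inv_radical hm) fun t => by rw [radical, radical, Real.sin_pi_sub]

theorem surjective_incomplete : Function.Surjective (incomplete m) := by
  have hper : Function.Periodic (fun t => (radical m t)⁻¹) π := fun t => by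
    simp [radical, Real.sin_add_pi]
  have hpos : 0 < ∫ t in (0 : ℝ)..π, (radical m t)⁻¹ :=
    intervalIntegral.intervalIntegral_pos_of_pos
      ((continuous_inv_radical hm).intervalIntegrable _ _)
      (fun t => inv_pos.2 (radical_pos hm t)) Real.pi_pos
  exact (intervalIntegral.continuous_primitive
      (fun _ _ => (continuous_inv_radical hm).intervalIntegrable _ _) 0).surjective
    (hper.tendsto_atTop_intervalIntegral_of_pos hpos Real.pi_pos)
    (hper.tendsto_atBot_intervalIntegral_of_pos hpos Real.pi_pos)

theorem incomplete_am (x : ℝ) : incomplete m (am m x) = x :=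
  Function.invFun_eq (surjective_incomplete hm x)

theorem am_incomplete (t : ℝ) : am m (incomplete m t) = t :=
  Function.leftInverse_invFun (strictMono_incomplete hm).injective t

theorem continuous_am : Continuous (am m) := by
  have h : am m = ((strictMono_incomplete hm).orderIsoOfSurjective _
      (surjective_incomplete hm)).symm := funext fun x => by
    apply (strictMono_incomplete hm).injective
    rw [incomplete_am hm]
    exact (((strictMono_incomplete hm).orderIsoOfSurjective _
      (surjective_incomplete hm)).apply_symm_apply x).symm
  rw [h]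
  exact ((strictMono_incomplete hm).orderIsoOfSurjective _
    (surjective_incomplete hm)).symm.continuous

theorem hasDerivAt_am (x : ℝ) : HasDerivAt (am m) (radical m (am m x)) x := by
  simpa using (hasDerivAt_incomplete hm (am m x)).of_local_left_inverse
    (continuous_am hm).continuousAt (inv_ne_zero (radical_pos hm _).ne')
    (Filter.Eventually.of_forall (incomplete_am hm))

theorem hasDerivAt_segFun (x : ℝ) : HasDerivAt (segFun m) (segDer m x) x :=
  (((((Real.hasDerivAt_sin _).comp x (hasDerivAt_am hm x)).pow 2).const_mul m).const_add
    (rootOne m)).congr_deriv (by simp only [segDer, Function.comp_apply]; push_cast; ring)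

theorem hasDerivAt_segDer (x : ℝ) :
    HasDerivAt (segDer m) (6 * segFun m x ^ 2 - invTwo m / 2) x := by
  have hφ := hasDerivAt_am hm x
  have hr := radical_sq hm (am m x)
  have hr0 := (radical_pos hm (am m x)).ne'
  have hrd : HasDerivAt (radical m)
      (-(m * Real.sin (am m x) * Real.cos (am m x)) / radical m (am m x)) (am m x) := by
    refine (((((Real.hasDerivAt_sin _).pow 2).const_mul m).const_sub 1).sqrt
      (radicand_pos hm (am m x)).ne').congr_deriv ?_
    rw [Pi.pow_apply, show √(1 - m * Real.sin (am m x) ^ 2) = radical m (am m x) from rfl]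
    field_simp
    ring
  refine (((((Real.hasDerivAt_sin _).comp x hφ).const_mul (2 * m)).mul
    ((Real.hasDerivAt_cos _).comp x hφ)).mul (hrd.comp x hφ)).congr_deriv ?_
  simp only [Function.comp_apply, segFun, invTwo, rootOne, Pi.mul_apply]
  have hc := Real.sin_sq_add_cos_sq (am m x)
  field_simp
  linear_combination (36 * m * Real.cos (am m x) ^ 2 - 36 * m * Real.sin (am m x) ^ 2) * hr +
    (36 * m - 72 * m ^ 2 * Real.sin (am m x) ^ 2) * hc

theorem segFun_zero : segFun m 0 = rootOne m ∧ segDer m 0 = 0 := by
  have h : am m 0 = 0 := by
    simpa [incomplete] using am_incomplete hm 0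
  simp [segFun, segDer, h]

theorem segFun_period :
    segFun m (2 * completeK m) = rootOne m ∧ segDer m (2 * completeK m) = 0 := by
  have h : am m (2 * completeK m) = π := by rw [← incomplete_pi hm, am_incomplete hm]
  simp [segFun, segDer, h]

theorem integral_segFun : ∫ x in (0 : ℝ)..2 * completeK m, segFun m x =
    (rootOne m + 1) * (2 * completeK m) - 2 * completeE m := by
  have hseg : Continuous (segFun m) :=
    continuous_iff_continuousAt.2 fun x => (hasDerivAt_segFun hm x).continuousAt
  have hI := continuous_inv_radical hm
  have hR : Continuous (radical m) := by unfold radical; fun_prop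
  have h := intervalIntegral.integral_comp_mul_deriv (a := 0) (b := π)
    (fun t _ => hasDerivAt_incomplete hm t) hI.continuousOn hseg
  rw [incomplete_pi hm, show incomplete m 0 = 0 by simp [incomplete]] at h
  rw [← h]
  have he : ∀ t, (segFun m ∘ incomplete m) t * (radical m t)⁻¹ =
      (rootOne m + 1) * (radical m t)⁻¹ - radical m t := fun t => by
    have h0 := (radical_pos hm t).ne'
    rw [Function.comp_apply, segFun, am_incomplete hm]
    field_simp
    linear_combination radical_sq hm t
  simp only [he]
  have hcI : Continuous fun t => (rootOne m + 1) * (radical m t)⁻¹ := continuous_const.mul hI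
  rw [intervalIntegral.integral_sub (hcI.intervalIntegrable _ _)
    (hR.intervalIntegrable _ _), intervalIntegral.integral_const_mul, ← incomplete_pi hm,
    completeE, ← integral_zero_pi hR fun t => by rw [radical, radical, Real.sin_pi_sub]]
  rfl

end FA.EllipseArc

end
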