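import Fermat.Agent.EllipseArc.Period
import Fermat.Agent.Transcendence.HermiteLindemann

/-!
# Transcendence of the complete integrals and of the perimeter of an ellipse
-/

set_option autoImplicit false

noncomputable section

open Real
open scoped Real

namespace FA.EllipseArc

variable {m : ℝ}

theorem isAlgebraic_roots (hm : IsAlgebraic ℚ m) :
    IsAlgebraic ℚ (rootOne m) ∧ IsAlgebraic ℚ (invTwo m) ∧ IsAlgebraic ℚ (invThree m) := by
  have hn : ∀ k : ℕ, IsAlgebraic ℚ ((k : ℝ)) := fun k => isAlgebraic_natCast k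
  have h1 : IsAlgebraic ℚ (rootOne m) := by
    rw [rootOne, div_eq_mul_inv]
    simpa using ((isAlgebraic_one.add hm).neg).mul (hn 3).inv
  have h2 := h1.add hm
  have h3 := h1.add isAlgebraic_one
  refine ⟨h1, ?_, ?_⟩
  · unfold invTwo
    simpa using ((hn 4).neg).mul (((h1.mul h2).add (h1.mul h3)).add (h2.mul h3))
  · unfold invThree
    simpa using (hn 4).mul ((h1.mul h2).mul h3)

/-- **Schneider**: combinations of the complete elliptic integrals. -/
theorem transcendental_combination (hm : m < 1) (hm0 : m ≠ 0) (hma : IsAlgebraic ℚ m) {a b : ℝ}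
    (ha : IsAlgebraic ℚ a) (hb : IsAlgebraic ℚ b) (hab : a ≠ 0 ∨ b ≠ 0) :
    Transcendental ℚ (a * completeK m + b * completeE m) := by
  obtain ⟨L, ζ, h₂, h₃, hζ, hT, hη⟩ := exists_period_quasiPeriod hm hm0
  obtain ⟨h1, hg2, hg3⟩ := isAlgebraic_roots hma
  intro hal
  have hK : completeK m ≠ 0 := ne_of_gt (intervalIntegral.intervalIntegral_pos_of_pos
    ((continuous_inv_radical hm).intervalIntegrable _ _)
    (fun t => inv_pos.2 (radical_pos hm t)) Real.pi_div_two_pos)
  have h2i : IsAlgebraic ℚ (2 : ℝ)⁻¹ := by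
    simpa using (isAlgebraic_natCast (R := ℚ) (A := ℝ) 2).inv
  set A : ℝ := (a + b * (rootOne m + 1)) * 2⁻¹ with hA
  set B : ℝ := b * 2⁻¹ with hB
  have hA' : IsAlgebraic ℚ A := (ha.add (hb.mul (h1.add isAlgebraic_one))).mul h2i
  have hAB : (A : ℂ) ≠ 0 ∨ (B : ℂ) ≠ 0 := by
    rcases eq_or_ne b 0 with rfl | hb0
    · exact Or.inl (Complex.ofReal_ne_zero.2 (by simpa [hA] using hab))
    · exact Or.inr (Complex.ofReal_ne_zero.2 (mul_ne_zero hb0 (inv_ne_zero two_ne_zero)))
  refine FA.EllipticSecondKind.transcendental_second_kind (h₂ ▸ hg2.algebraMap (A := ℂ))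
    (h₃ ▸ hg3.algebraMap (A := ℂ)) hζ hT
    (Complex.ofReal_ne_zero.2 (mul_ne_zero two_ne_zero hK)) hη (hA'.algebraMap (A := ℂ))
    ((hb.mul h2i).algebraMap (A := ℂ)) hAB ?_
  convert hal.algebraMap (A := ℂ) using 1
  simp [hA]
  ring

theorem transcendental_completeK (hm : m < 1) (hm0 : m ≠ 0) (hma : IsAlgebraic ℚ m) :
    Transcendental ℚ (completeK m) := by
  simpa using transcendental_combination hm hm0 hma (a := 1) (b := 0) isAlgebraic_one
    isAlgebraic_zero (Or.inl one_ne_zero)

theorem transcendental_completeE (hm : m < 1) (hm0 : m ≠ 0) (hma : IsAlgebraic ℚ m) :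
    Transcendental ℚ (completeE m) := by
  simpa using transcendental_combination hm hm0 hma (a := 0) (b := 1) isAlgebraic_zero
    isAlgebraic_one (Or.inr one_ne_zero)

theorem transcendental_ratio (hm : m < 1) (hm0 : m ≠ 0) (hma : IsAlgebraic ℚ m) :
    Transcendental ℚ (completeE m / completeK m) := fun h => by
  have hK : completeK m ≠ 0 := fun e =>
    transcendental_completeK hm hm0 hma (e ▸ isAlgebraic_zero)
  refine transcendental_combination hm hm0 hma h.neg isAlgebraic_one (Or.inr one_ne_zero) ?_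
  rw [show -(completeE m / completeK m) * completeK m + 1 * completeE m = 0 by field_simp; ring]
  exact isAlgebraic_zero

/-- The length of the ellipse with semiaxes `a`, `b`. -/
theorem integral_ellipse {a b : ℝ} (hb : 0 < b) :
    ∫ t in (0 : ℝ)..2 * π, √((a * Real.sin t) ^ 2 + (b * Real.cos t) ^ 2) =
      4 * b * completeE (1 - a ^ 2 / b ^ 2) := by
  set m := 1 - a ^ 2 / b ^ 2 with hmdef
  have hR : Continuous (radical m) := by unfold radical; fun_prop
  have hper : Function.Periodic (radical m) π := fun t => by simp [radical, Real.sin_add_pi]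
  have hf : ∀ t, √((a * Real.sin t) ^ 2 + (b * Real.cos t) ^ 2) = b * radical m t := fun t => by
    rw [radical, ← Real.sqrt_sq hb.le, ← Real.sqrt_mul (sq_nonneg b), Real.sqrt_sq hb.le]
    congr 1
    rw [hmdef, mul_pow, mul_pow, Real.cos_sq']
    field_simp
    ring
  simp only [hf, intervalIntegral.integral_const_mul]
  have h1 := intervalIntegral.integral_add_adjacent_intervals (a := 0) (b := π) (c := π + π)
    (hR.intervalIntegrable (μ := MeasureTheory.volume) _ _) (hR.intervalIntegrable _ _)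
  rw [hper.intervalIntegral_add_eq π 0, zero_add] at h1
  rw [two_mul π, ← h1,
    integral_zero_pi hR fun t => by rw [radical, radical, Real.sin_pi_sub]]
  rw [completeE]
  ring

theorem transcendental_pi' : Transcendental ℚ π := by
  intro h
  have hI : IsAlgebraic ℚ Complex.I :=
    (IsIntegral.of_pow two_pos (by rw [Complex.I_sq]; exact isIntegral_one.neg)).isAlgebraic
  exact FA.HermiteLindemann.transcendental_exp
    (mul_ne_zero (Complex.ofReal_ne_zero.2 Real.pi_ne_zero) Complex.I_ne_zero)
    ((h.algebraMap (A := ℂ)).mul hI)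
    (by rw [Complex.exp_pi_mul_I]; exact isAlgebraic_one.neg)

/-- **The perimeter of an ellipse with algebraic semiaxes is transcendental.** -/
theorem transcendental_perimeter {a b : ℝ} (ha : 0 < a) (hb : 0 < b) (ha' : IsAlgebraic ℚ a)
    (hb' : IsAlgebraic ℚ b) :
    Transcendental ℚ
      (∫ t in (0 : ℝ)..2 * π, √((a * Real.sin t) ^ 2 + (b * Real.cos t) ^ 2)) := by
  have hq : 0 < a ^ 2 / b ^ 2 := by positivity
  rw [integral_ellipse hb]
  intro h
  have hm' : IsAlgebraic ℚ (1 - a ^ 2 / b ^ 2) := by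
    rw [div_eq_mul_inv]
    exact isAlgebraic_one.sub ((ha'.pow 2).mul (hb'.pow 2).inv)
  have hc : IsAlgebraic ℚ ((4 * b)⁻¹) := by
    simpa using ((isAlgebraic_natCast (R := ℚ) (A := ℝ) 4).mul hb').inv
  have hE : IsAlgebraic ℚ (completeE (1 - a ^ 2 / b ^ 2)) := by
    have := hc.mul h
    rwa [inv_mul_cancel_left₀ (by positivity)] at this
  rcases eq_or_ne (1 - a ^ 2 / b ^ 2) 0 with h0 | h0
  · rw [h0] at hE
    have h2 : completeE 0 = π * 2⁻¹ := by simp [completeE, radical, div_eq_mul_inv]
    rw [h2] at hE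
    exact transcendental_pi' (by
      simpa using hE.mul (isAlgebraic_natCast (R := ℚ) (A := ℝ) 2))
  · exact transcendental_completeE (by linarith) h0 hm' hE

end FA.EllipseArc

end
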