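import Fermat.Agent.EllipseArc.Amplitude
import Fermat.Agent.EllipticSecondKind.Main
import Fermat.Agent.ClassNumberOne.Ode
import Fermat.Agent.Tau.JInjective
import Mathlib.Analysis.ODE.ExistUnique
import Mathlib.Analysis.Calculus.ContDiff.RCLike

/-!
# The complete integrals as a period and a quasi-period

`℘ (w + x)` is the function of the amplitude on the real line when `℘ w = e₁`. So `T = 2 K` is a
period and `2 E - e₃ T` is its quasi-period.
-/

set_option autoImplicit false

noncomputable section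

open Complex Filter
open scoped Topology PeriodPair

namespace FA.EllipseArc

variable {L : PeriodPair}

/-- A solution of the equation of `℘` on the real line is `℘` on a line. -/
theorem eq_weierstrassP_line {Y V : ℝ → ℂ} (hY : ∀ x, HasDerivAt Y (V x) x)
    (hV : ∀ x, HasDerivAt V (6 * Y x ^ 2 - L.g₂ / 2) x) {w : ℂ} (hw : w ∉ L.lattice)
    (h0 : ℘[L] w = Y 0) (h0' : ℘'[L] w = V 0) (x : ℝ) :
    w + x ∉ L.lattice ∧ ℘[L] (w + x) = Y x ∧ ℘'[L] (w + x) = V x := by
  set S : Set ℝ :=
    {x | w + x ∉ L.lattice ∧ ℘[L] (w + x) = Y x ∧ ℘'[L] (w + x) = V x} with hS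
  have hcoe : ∀ x : ℝ, HasDerivAt (fun t : ℝ => w + (t : ℂ)) 1 x := fun x =>
    ((hasDerivAt_id x).ofReal_comp).const_add w
  have hline : Continuous fun t : ℝ => w + (t : ℂ) := by fun_prop
  have hYc : Continuous Y := continuous_iff_continuousAt.2 fun x => (hY x).continuousAt
  have hVc : Continuous V := continuous_iff_continuousAt.2 fun x => (hV x).continuousAt
  have hopen : IsOpen S := isOpen_iff_mem_nhds.2 fun a ha => by
    obtain ⟨ha0, ha1, ha2⟩ := ha
    set v : ℂ × ℂ → ℂ × ℂ := fun p => (p.2, 6 * p.1 ^ 2 - L.g₂ / 2)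
    have hv : ContDiffAt ℝ 1 v (Y a, V a) := by fun_prop
    obtain ⟨K, s, hs, hlip⟩ := hv.exists_lipschitzOnWith
    have hnot : ∀ᶠ t : ℝ in 𝓝 a, w + (t : ℂ) ∉ L.lattice :=
      hline.continuousAt.eventually (Mazur.Weier.eventually_notMem L ha0)
    have hP : ContinuousAt (fun t : ℝ => (℘[L] (w + t), ℘'[L] (w + t))) a :=
      ((Mazur.Weier.analyticAt_P L ha0).continuousAt.comp (f := fun t : ℝ => w + (t : ℂ))
        hline.continuousAt).prodMk ((Mazur.Weier.analyticAt_P' L ha0).continuousAt.comp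
          (f := fun t : ℝ => w + (t : ℂ)) hline.continuousAt)
    have key : (fun t : ℝ => (℘[L] (w + t), ℘'[L] (w + t))) =ᶠ[𝓝 a] fun t => (Y t, V t) := by
      refine ODE_solution_unique_of_eventually (v := fun _ => v) (s := fun _ => s)
        (Eventually.of_forall fun _ => hlip) ?_ ?_ (by simp [ha1, ha2])
      · filter_upwards [hnot, hP.preimage_mem_nhds (by simpa [ha1, ha2] using hs)] with t ht hts
        have h1 := (Mazur.Weier.analyticAt_P L ht).differentiableAt.hasDerivAt
        rw [L.deriv_weierstrassP] at h1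
        have h2 := (Mazur.Weier.analyticAt_P' L ht).differentiableAt.hasDerivAt
        rw [Mazur.Weier.deriv_derivWeierstrassP L ht] at h2
        exact ⟨by simpa [v] using (h1.comp t (hcoe t)).prodMk (h2.comp t (hcoe t)), hts⟩
      · filter_upwards [(hYc.prodMk hVc).continuousAt.preimage_mem_nhds hs] with t ht
        exact ⟨(hY t).prodMk (hV t), ht⟩
    filter_upwards [hnot, key] with t ht hk
    exact ⟨ht, (Prod.ext_iff.1 hk).1, (Prod.ext_iff.1 hk).2⟩
  have hclosed : IsClosed S := isClosed_of_closure_subset fun b hb => by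
    by_cases hbS : b ∈ S
    · exact hbS
    have : (𝓝[S] b).NeBot := mem_closure_iff_nhdsWithin_neBot.1 hb
    have hb0 : w + (b : ℂ) ∉ L.lattice := fun hl => by
      set l := w + (b : ℂ)
      set H : ℂ → ℂ := fun z =>
        (z - l) ^ 2 * ℘[L - l] z + 1 - (z - l) ^ 2 / l ^ 2
      have hH : ContinuousAt H l :=
        ((((continuousAt_id.sub continuousAt_const).pow 2).mul
          (L.analyticAt_weierstrassPExcept l).continuousAt).add continuousAt_const).sub
            (((continuousAt_id.sub continuousAt_const).pow 2).div_const _)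
      have h1 : Tendsto (fun t : ℝ => H (w + t)) (𝓝[S] b) (𝓝 1) := by
        have := (hH.tendsto.comp (hline.tendsto b)).mono_left (nhdsWithin_le_nhds (s := S))
        simpa [Function.comp_def, H, l] using this
      have h2 : Tendsto (fun t : ℝ => (w + (t : ℂ) - l) ^ 2 * Y t) (𝓝[S] b) (𝓝 0) := by
        have := (((hline.sub (continuous_const (y := l))).pow 2).mul hYc).tendsto b
        simp [l] at this ⊢
        exact this.mono_left nhdsWithin_le_nhds |>.congr fun t => by simp
      refine one_ne_zero (tendsto_nhds_unique (h1.congr' ?_) h2)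
      filter_upwards [self_mem_nhdsWithin] with t ht
      have hne : w + (t : ℂ) ≠ l := fun e => hbS (by
        rwa [show t = b by simpa [l] using e] at ht)
      simp only [H]
      rw [← L.ite_eq_one_sub_sq_mul_weierstrassP l hl, if_neg hne, ht.2.1]
    refine ⟨hb0, ?_, ?_⟩
    · have h1 : Tendsto (fun t : ℝ => ℘[L] (w + t)) (𝓝[S] b) (𝓝 (℘[L] (w + b))) :=
        ((Mazur.Weier.analyticAt_P L hb0).continuousAt.tendsto.comp
          (hline.tendsto b)).mono_left nhdsWithin_le_nhds
      refine tendsto_nhds_unique (h1.congr' ?_) ((hYc.tendsto b).mono_left nhdsWithin_le_nhds)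
      filter_upwards [self_mem_nhdsWithin] with t ht using ht.2.1
    · have h1 : Tendsto (fun t : ℝ => ℘'[L] (w + t)) (𝓝[S] b) (𝓝 (℘'[L] (w + b))) :=
        ((Mazur.Weier.analyticAt_P' L hb0).continuousAt.tendsto.comp
          (hline.tendsto b)).mono_left nhdsWithin_le_nhds
      refine tendsto_nhds_unique (h1.congr' ?_) ((hVc.tendsto b).mono_left nhdsWithin_le_nhds)
      filter_upwards [self_mem_nhdsWithin] with t ht using ht.2.2
  have h0S : (0 : ℝ) ∈ S := by simp [hS, hw, h0, h0']
  exact Set.eq_univ_iff_forall.1 (IsClopen.eq_univ ⟨hclosed, hopen⟩ ⟨0, h0S⟩) x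

variable {m : ℝ}

theorem discriminant_ne_zero (hm : m < 1) (hm0 : m ≠ 0) :
    (invTwo m : ℂ) ^ 3 - 27 * (invThree m : ℂ) ^ 2 ≠ 0 := by
  have h : invTwo m ^ 3 - 27 * invThree m ^ 2 = 16 * (m * (1 - m)) ^ 2 := by
    unfold invTwo invThree rootOne; ring
  have h' : invTwo m ^ 3 - 27 * invThree m ^ 2 ≠ 0 := by
    rw [h]
    exact mul_ne_zero (by norm_num) (pow_ne_zero 2 (mul_ne_zero hm0 (sub_ne_zero.2 hm.ne')))
  exact_mod_cast h'

theorem exists_period_quasiPeriod (hm : m < 1) (hm0 : m ≠ 0) :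
    ∃ (L : PeriodPair) (ζ : ℂ → ℂ), L.g₂ = invTwo m ∧ L.g₃ = invThree m ∧
      (∀ z ∉ L.lattice, HasDerivAt ζ (-℘[L] z) z) ∧ ((2 * completeK m : ℝ) : ℂ) ∈ L.lattice ∧
      ∀ z ∉ L.lattice, ζ (z + ((2 * completeK m : ℝ) : ℂ)) =
        ζ z + ((2 * completeE m - (rootOne m + 1) * (2 * completeK m) : ℝ) : ℂ) := by
  obtain ⟨L, h₂, h₃⟩ := FA.JInj.exists_g₂_g₃ (discriminant_ne_zero hm hm0)
  obtain ⟨w, hw, hwp⟩ := FA.ClassNumberOne.exists_wp_eq L ((rootOne m : ℝ) : ℂ)
  have hroot : 4 * rootOne m ^ 3 - invTwo m * rootOne m - invThree m = 0 := by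
    unfold invTwo invThree rootOne; ring
  have hwq : ℘'[L] w = 0 := by
    refine pow_eq_zero_iff two_ne_zero |>.1 ?_
    rw [L.derivWeierstrassP_sq w hw, hwp, h₂, h₃]
    exact_mod_cast hroot
  have hline := eq_weierstrassP_line (L := L) (Y := fun x => ((segFun m x : ℝ) : ℂ))
    (V := fun x => ((segDer m x : ℝ) : ℂ)) (fun x => (hasDerivAt_segFun hm x).ofReal_comp)
    (fun x => (hasDerivAt_segDer hm x).ofReal_comp.congr_deriv (by rw [h₂]; push_cast; ring)) hw
    (by rw [hwp, (segFun_zero hm).1]) (by rw [hwq, (segFun_zero hm).2, Complex.ofReal_zero])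
  set T : ℝ := 2 * completeK m with hT
  obtain ⟨hT0, hTp, hTq⟩ := hline T
  rw [(segFun_period hm).1, ← hwp] at hTp
  rw [(segFun_period hm).2, Complex.ofReal_zero, ← hwq] at hTq
  have hmem : (T : ℂ) ∈ L.lattice := by
    simpa using Mazur.Weier.sub_mem_of_eq L hw hT0 hTp.symm hTq.symm
  obtain ⟨ζ, hζ, hper⟩ := FA.EllipticSecondKind.exists_primitive L
  obtain ⟨η, hη⟩ := hper _ hmem
  refine ⟨L, ζ, h₂, h₃, hζ, hmem, fun z hz => ?_⟩
  rw [hη z hz]
  congr 1
  have hd : ∀ x ∈ Set.uIcc 0 T,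
      HasDerivAt (fun t : ℝ => ζ (w + t)) (-((segFun m x : ℝ) : ℂ)) x := fun x _ => by
    obtain ⟨hx, hxp, -⟩ := hline x
    have h := (hζ _ hx).comp x (((hasDerivAt_id x).ofReal_comp).const_add w)
    simpa [hxp, Function.comp_def] using h
  have hcont : Continuous fun x => ((segFun m x : ℝ) : ℂ) := Complex.continuous_ofReal.comp
    (continuous_iff_continuousAt.2 fun x => (hasDerivAt_segFun hm x).continuousAt)
  have hI := intervalIntegral.integral_eq_sub_of_hasDerivAt hd
    (hcont.neg.intervalIntegrable _ _)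
  rw [intervalIntegral.integral_neg, intervalIntegral.integral_ofReal, integral_segFun hm,
    hη w hw, Complex.ofReal_zero, add_zero] at hI
  rw [hT]
  push_cast at hI ⊢
  linear_combination -hI

end FA.EllipseArc

end
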